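import Mathlib.RingTheory.Polynomial.Vieta
import Mathlib.RingTheory.MvPolynomial.Symmetric.Defs

/-!
# Symmetric functions of a finite family: elementary symmetric functions and
Lagrange numerators (pure commutative algebra; helper26, package P2 of the S23 plan).
-/

set_option autoImplicit false

namespace Fermat.Agent.S23.H26

open Finset Polynomial

variable {ι R : Type*} [Fintype ι] [CommRing R]

/-- `e_m` of the finite family `b`. -/
noncomputable def esymmFam (b : ι → R) (m : ℕ) : R :=
  ((Finset.univ : Finset ι).val.map b).esymm m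

open Classical in
/-- The Lagrange numerator `∑_q a_q e_m(b_l : l ≠ q)`. -/
noncomputable def lagrangeFam (a b : ι → R) (m : ℕ) : R :=
  ∑ q : ι, a q * (((Finset.univ : Finset ι).erase q).val.map b).esymm m

theorem esymmFam_eq_sum (b : ι → R) (m : ℕ) :
    esymmFam b m = ∑ s ∈ (Finset.univ : Finset ι).powersetCard m, ∏ i ∈ s, b i :=
  Finset.esymm_map_val b _ m

theorem lagrangeFam_eq_sum [DecidableEq ι] (a b : ι → R) (m : ℕ) :
    lagrangeFam a b m =
      ∑ q : ι, a q * ∑ s ∈ ((Finset.univ : Finset ι).erase q).powersetCard m, ∏ i ∈ s, b i := by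
  unfold lagrangeFam
  refine Finset.sum_congr rfl fun q _ => ?_
  rw [← Finset.esymm_map_val]
  congr!

theorem esymmFam_zero (b : ι → R) : esymmFam b 0 = 1 := by
  simp [esymmFam, Multiset.esymm]

theorem esymmFam_comp_equiv (e : ι ≃ ι) (b : ι → R) (m : ℕ) :
    esymmFam (fun i => b (e i)) m = esymmFam b m := by
  unfold esymmFam
  rw [show (fun i => b (e i)) = b ∘ e from rfl, ← Multiset.map_map, Multiset.map_univ_val_equiv]

theorem lagrangeFam_comp_equiv (e : ι ≃ ι) (a b : ι → R) (m : ℕ) :
    lagrangeFam (fun i => a (e i)) (fun i => b (e i)) m = lagrangeFam a b m := by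
  classical
  unfold lagrangeFam
  rw [← Equiv.sum_comp e (fun q => a q * (((Finset.univ : Finset ι).erase q).val.map b).esymm m)]
  refine Finset.sum_congr rfl fun q _ => ?_
  congr 2
  have h : ((Finset.univ : Finset ι).erase (e q)) =
      ((Finset.univ : Finset ι).erase q).map e.toEmbedding := by
    rw [Finset.map_erase, Finset.map_univ_equiv]
    rfl
  rw [show (fun i => b (e i)) = b ∘ e from rfl, ← Multiset.map_map]
  congr 1
  rw [h, Finset.map_val]
  congr!

/-- Vieta: each member of the family is a root of `∑ (-1)^j e_j X^(μ-j)`. -/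
theorem vieta_root (b : ι → R) (q₀ : ι) :
    ∑ j ∈ Finset.range (Fintype.card ι + 1),
      (-1) ^ j * esymmFam b j * b q₀ ^ (Fintype.card ι - j) = 0 := by
  classical
  have h := Multiset.prod_X_sub_X_eq_sum_esymm ((Finset.univ : Finset ι).val.map b)
  have h2 := congrArg (Polynomial.eval (b q₀)) h
  simp only [Multiset.card_map, Finset.card_val, Finset.card_univ, Polynomial.eval_finsetSum,
    Polynomial.eval_mul, Polynomial.eval_pow, Polynomial.eval_neg, Polynomial.eval_one,
    Polynomial.eval_C, Polynomial.eval_X] at h2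
  have h3 : Polynomial.eval (b q₀)
      (Multiset.map (fun t => X - C t) (Multiset.map b (Finset.univ : Finset ι).val)).prod = 0 := by
    rw [Multiset.map_map]
    change Polynomial.eval (b q₀) (∏ i : ι, (X - C (b i))) = 0
    rw [Polynomial.eval_prod]
    exact Finset.prod_eq_zero (Finset.mem_univ q₀) (by simp)
  rw [h3] at h2
  rw [h2]
  refine Finset.sum_congr rfl fun j _ => ?_
  unfold esymmFam
  ring

/-- Lagrange interpolation numerator evaluated at `b q₀`. -/
theorem lagrange_eval [DecidableEq ι] (a b : ι → R) (q₀ : ι) :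
    a q₀ * ∏ l ∈ (Finset.univ : Finset ι).erase q₀, (b q₀ - b l) =
      ∑ j ∈ Finset.range (Fintype.card ι),
        (-1) ^ j * lagrangeFam a b j * b q₀ ^ (Fintype.card ι - 1 - j) := by
  classical
  -- expand each `∏_{l ≠ q} (X - b l)` by Vieta and evaluate at `b q₀`
  have key : ∀ q : ι, ∏ l ∈ (Finset.univ : Finset ι).erase q, (b q₀ - b l) =
      ∑ j ∈ Finset.range (Fintype.card ι),
        (-1) ^ j * ((((Finset.univ : Finset ι).erase q).val.map b).esymm j *
          b q₀ ^ (Fintype.card ι - 1 - j)) := by
    intro q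
    have h := Multiset.prod_X_sub_X_eq_sum_esymm (((Finset.univ : Finset ι).erase q).val.map b)
    have h2 := congrArg (Polynomial.eval (b q₀)) h
    have hcard : Multiset.card (Multiset.map b ((Finset.univ : Finset ι).erase q).val) + 1 =
        Fintype.card ι := by
      rw [Multiset.card_map, Finset.card_val, Finset.card_erase_of_mem (Finset.mem_univ q),
        Finset.card_univ]
      have : 0 < Fintype.card ι := Fintype.card_pos_iff.mpr ⟨q⟩
      omega
    have hcard' : Multiset.card (Multiset.map b ((Finset.univ : Finset ι).erase q).val) =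
        Fintype.card ι - 1 := by omega
    rw [hcard] at h2
    simp only [hcard', Polynomial.eval_finsetSum,
      Polynomial.eval_mul, Polynomial.eval_pow, Polynomial.eval_neg, Polynomial.eval_one,
      Polynomial.eval_C, Polynomial.eval_X] at h2
    rw [← h2, Multiset.map_map]
    change _ = Polynomial.eval (b q₀) (∏ i ∈ (Finset.univ : Finset ι).erase q, (X - C (b i)))
    rw [Polynomial.eval_prod]
    simp
  have hvanish : ∀ q : ι, q ≠ q₀ → ∏ l ∈ (Finset.univ : Finset ι).erase q, (b q₀ - b l) = 0 := by
    intro q hq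
    exact Finset.prod_eq_zero (Finset.mem_erase.mpr ⟨hq.symm, Finset.mem_univ q₀⟩) (by simp)
  have hsum : a q₀ * ∏ l ∈ (Finset.univ : Finset ι).erase q₀, (b q₀ - b l) =
      ∑ q : ι, a q * ∏ l ∈ (Finset.univ : Finset ι).erase q, (b q₀ - b l) := by
    rw [Finset.sum_eq_single q₀]
    · intro q _ hq
      rw [hvanish q hq, mul_zero]
    · intro h
      exact absurd (Finset.mem_univ q₀) h
  rw [hsum]
  simp_rw [key, Finset.mul_sum]
  rw [Finset.sum_comm]
  refine Finset.sum_congr rfl fun j _ => ?_
  unfold lagrangeFam
  rw [Finset.mul_sum, Finset.sum_mul]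
  refine Finset.sum_congr rfl fun q _ => ?_
  have : (((Finset.univ : Finset ι).erase q).val.map b).esymm j =
      ((@Finset.erase ι (fun a b => Classical.propDecidable (a = b)) Finset.univ q).val.map b).esymm j := by
    congr!
  rw [this]
  ring

end Fermat.Agent.S23.H26
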