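import Mathlib.NumberTheory.ModularForms.NormTrace
import Fermat.Agent.S23.H26.SymmAlg

/-!
# Level-`ℋ` forms from symmetric functions of the translates of forms of level `𝒢`

Package P2 of the S23 plan (helper26).  For `f` of weight `k` and `g` of weight `w` on `𝒢`
(with `𝒢 ⊓ ℋ` of finite index in `ℋ`, `ℋ` of determinant `±1`), with translates
`f_q := SlashInvariantForm.quotientFunc f q`, `q ∈ 𝒬 := ℋ ⧸ 𝒢.subgroupOf ℋ`:

* `esymmForm ℋ f m : ModularForm ℋ (k * m)` with underlying function `e_m (f_q)_q`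
  (`esymmCuspForm` if `f` is a cusp form and `m ≠ 0`);
* `lagrangeForm ℋ f g m : ModularForm ℋ (k + w * m)` with underlying function
  `∑_q f_q * e_m (g_l : l ≠ q)` (`lagrangeCuspForm` if `f` is a cusp form);
* the pointwise identities `vieta_apply` (I2) and `lagrange_apply` (I1).
-/

set_option autoImplicit false

open UpperHalfPlane
open scoped ModularForm Topology Filter Manifold MatrixGroups

namespace Fermat.Agent.S23.H26

section slash

variable {ι : Type} [Fintype ι]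

lemma esymmFam_slash (k : ℤ) (γ : GL (Fin 2) ℝ) (b : ι → ℍ → ℂ) (m : ℕ) :
    (esymmFam b m) ∣[k * m] γ =
      |γ.det.val| ^ ((m : ℤ) - 1) • esymmFam (fun i => b i ∣[k] γ) m := by
  rw [esymmFam_eq_sum, esymmFam_eq_sum, SlashAction.sum_slash, Finset.smul_sum]
  refine Finset.sum_congr rfl fun s hs => ?_
  have hs' : s.card = m := (Finset.mem_powersetCard.mp hs).2
  rw [← hs', ModularForm.prod_slash]

lemma lagrangeFam_slash (k w : ℤ) (γ : GL (Fin 2) ℝ) (a b : ι → ℍ → ℂ) (m : ℕ) :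
    (lagrangeFam a b m) ∣[k + w * m] γ =
      |γ.det.val| ^ (m : ℤ) • lagrangeFam (fun i => a i ∣[k] γ) (fun i => b i ∣[w] γ) m := by
  classical
  rw [lagrangeFam_eq_sum, lagrangeFam_eq_sum, SlashAction.sum_slash, Finset.smul_sum]
  refine Finset.sum_congr rfl fun q _ => ?_
  rw [Finset.mul_sum, Finset.mul_sum, SlashAction.sum_slash, Finset.smul_sum]
  refine Finset.sum_congr rfl fun s hs => ?_
  have hs' : s.card = m := (Finset.mem_powersetCard.mp hs).2
  rw [← hs', ModularForm.mul_slash, ModularForm.prod_slash]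
  have hd : |γ.det.val| ≠ 0 := abs_ne_zero.mpr (Matrix.GeneralLinearGroup.det_ne_zero γ)
  rw [mul_smul_comm, smul_smul]
  congr 1
  rw [← zpow_one_add₀ hd]
  congr 1
  ring

lemma esymmFam_apply (b : ι → ℍ → ℂ) (m : ℕ) (z : ℍ) :
    esymmFam b m z = esymmFam (fun i => b i z) m := by
  rw [esymmFam_eq_sum, esymmFam_eq_sum, Finset.sum_apply]
  exact Finset.sum_congr rfl fun s _ => Finset.prod_apply _ _ _

lemma lagrangeFam_apply (a b : ι → ℍ → ℂ) (m : ℕ) (z : ℍ) :
    lagrangeFam a b m z = lagrangeFam (fun i => a i z) (fun i => b i z) m := by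
  classical
  rw [lagrangeFam_eq_sum, lagrangeFam_eq_sum, Finset.sum_apply]
  refine Finset.sum_congr rfl fun q _ => ?_
  rw [Pi.mul_apply, Finset.sum_apply]
  congr 1
  exact Finset.sum_congr rfl fun s _ => Finset.prod_apply _ _ _

lemma esymmFam_mdifferentiable (b : ι → ℍ → ℂ) (hb : ∀ i, MDiff (b i)) (m : ℕ) :
    MDiff (esymmFam b m) := by
  rw [esymmFam_eq_sum]
  refine MDifferentiable.sum (f := fun s : Finset ι => ∏ i ∈ s, b i) fun s _ => ?_
  exact MDifferentiable.prod (f := b) fun i _ => hb i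

lemma lagrangeFam_mdifferentiable (a b : ι → ℍ → ℂ) (ha : ∀ i, MDiff (a i))
    (hb : ∀ i, MDiff (b i)) (m : ℕ) : MDiff (lagrangeFam a b m) := by
  classical
  rw [lagrangeFam_eq_sum]
  refine MDifferentiable.sum
    (f := fun q : ι => a q * ∑ s ∈ (Finset.univ.erase q).powersetCard m, ∏ i ∈ s, b i)
    fun q _ => ?_
  refine (ha q).mul ?_
  refine MDifferentiable.sum (f := fun s : Finset ι => ∏ i ∈ s, b i) fun s _ => ?_
  exact MDifferentiable.prod (f := b) fun i _ => hb i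

lemma esymmFam_isBoundedAtImInfty (b : ι → ℍ → ℂ) (hb : ∀ i, IsBoundedAtImInfty (b i)) (m : ℕ) :
    IsBoundedAtImInfty (esymmFam b m) := by
  rw [esymmFam_eq_sum]
  exact (boundedAtImInftySubalgebra ℂ).sum_mem fun s _ =>
    (boundedAtImInftySubalgebra ℂ).prod_mem fun i _ => hb i

lemma lagrangeFam_isBoundedAtImInfty (a b : ι → ℍ → ℂ) (ha : ∀ i, IsBoundedAtImInfty (a i))
    (hb : ∀ i, IsBoundedAtImInfty (b i)) (m : ℕ) : IsBoundedAtImInfty (lagrangeFam a b m) := by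
  classical
  rw [lagrangeFam_eq_sum]
  exact (boundedAtImInftySubalgebra ℂ).sum_mem fun q _ =>
    (boundedAtImInftySubalgebra ℂ).mul_mem (ha q) <|
      (boundedAtImInftySubalgebra ℂ).sum_mem fun s _ =>
        (boundedAtImInftySubalgebra ℂ).prod_mem fun i _ => hb i

lemma esymmFam_isZeroAtImInfty (b : ι → ℍ → ℂ) (hb : ∀ i, IsZeroAtImInfty (b i)) {m : ℕ}
    (hm : m ≠ 0) : IsZeroAtImInfty (esymmFam b m) := by
  classical
  rw [esymmFam_eq_sum]
  refine (zeroAtImInftySubmodule ℂ).sum_mem fun s hs => ?_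
  have hs' : s.card = m := (Finset.mem_powersetCard.mp hs).2
  obtain ⟨i₀, hi₀⟩ : s.Nonempty := Finset.card_pos.mp (by omega)
  rw [← Finset.mul_prod_erase s b hi₀]
  exact Filter.ZeroAtFilter.mul_boundedAtFilter (hb i₀) <|
    (boundedAtImInftySubalgebra ℂ).prod_mem fun i _ => (hb i).isBoundedAtImInfty

lemma lagrangeFam_isZeroAtImInfty (a b : ι → ℍ → ℂ) (ha : ∀ i, IsZeroAtImInfty (a i))
    (hb : ∀ i, IsBoundedAtImInfty (b i)) (m : ℕ) : IsZeroAtImInfty (lagrangeFam a b m) := by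
  classical
  rw [lagrangeFam_eq_sum]
  exact (zeroAtImInftySubmodule ℂ).sum_mem fun q _ =>
    Filter.ZeroAtFilter.mul_boundedAtFilter (ha q) <|
      (boundedAtImInftySubalgebra ℂ).sum_mem fun s _ =>
        (boundedAtImInftySubalgebra ℂ).prod_mem fun i _ => hb i

end slash

variable {𝒢 ℋ : Subgroup (GL (Fin 2) ℝ)} {F : Type*} (f : F) [FunLike F ℍ ℂ] {k : ℤ}
variable {G : Type*} (g : G) [FunLike G ℍ ℂ] {w : ℤ}

local notation "𝒬" => ℋ ⧸ (𝒢.subgroupOf ℋ)

open SlashInvariantForm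

section translates

lemma quotientFunc_slash_isBoundedAtImInfty [ModularFormClass F 𝒢 k] [𝒢.IsFiniteRelIndex ℋ]
    {c : OnePoint ℝ} (hc : IsCusp c ℋ) (γ : GL (Fin 2) ℝ) (hγ : γ • OnePoint.infty = c) (q : 𝒬) :
    IsBoundedAtImInfty (quotientFunc f q ∣[k] γ) := by
  induction q using Quotient.inductionOn with
  | h r =>
    obtain ⟨r, hr⟩ := r
    refine (ModularForm.translate f _).bdd_at_cusps' ?_ γ hγ
    simpa using hc.of_isFiniteRelIndex_conj hr

lemma quotientFunc_slash_isZeroAtImInfty [CuspFormClass F 𝒢 k] [𝒢.IsFiniteRelIndex ℋ]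
    {c : OnePoint ℝ} (hc : IsCusp c ℋ) (γ : GL (Fin 2) ℝ) (hγ : γ • OnePoint.infty = c) (q : 𝒬) :
    IsZeroAtImInfty (quotientFunc f q ∣[k] γ) := by
  induction q using Quotient.inductionOn with
  | h r =>
    obtain ⟨r, hr⟩ := r
    refine (CuspForm.translate f _).zero_at_cusps' ?_ γ hγ
    simpa using hc.of_isFiniteRelIndex_conj hr

lemma quotientFunc_mdifferentiable [ModularFormClass F 𝒢 k] (q : 𝒬) :
    MDiff (quotientFunc f q) := by
  induction q using Quotient.inductionOn with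
  | h r =>
    obtain ⟨r, hr⟩ := r
    exact (ModularForm.translate f r⁻¹).holo'

lemma quotientFunc_one [SlashInvariantFormClass F 𝒢 k] :
    quotientFunc f ((1 : ℋ) : 𝒬) = (f : ℍ → ℂ) := by
  change quotientFunc f ⟦(1 : ℋ)⟧ = _
  simp

end translates

variable (ℋ)

section defs

variable [𝒢.IsFiniteRelIndex ℋ]

/-- The function `e_m (f_q)_q` on `ℍ`. -/
noncomputable def esymmFun [SlashInvariantFormClass F 𝒢 k] (m : ℕ) : ℍ → ℂ :=
  let := Fintype.ofFinite 𝒬
  esymmFam (quotientFunc f : 𝒬 → ℍ → ℂ) m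

/-- The function `∑_q f_q * e_m (g_l : l ≠ q)` on `ℍ`. -/
noncomputable def lagrangeFun [SlashInvariantFormClass F 𝒢 k] [SlashInvariantFormClass G 𝒢 w]
    (m : ℕ) : ℍ → ℂ :=
  let := Fintype.ofFinite 𝒬
  lagrangeFam (quotientFunc f : 𝒬 → ℍ → ℂ) (quotientFunc g : 𝒬 → ℍ → ℂ) m

lemma esymmFun_eq [SlashInvariantFormClass F 𝒢 k] [Fintype 𝒬] (m : ℕ) :
    esymmFun ℋ f m = esymmFam (quotientFunc f : 𝒬 → ℍ → ℂ) m := by
  unfold esymmFun
  congr!

lemma lagrangeFun_eq [SlashInvariantFormClass F 𝒢 k] [SlashInvariantFormClass G 𝒢 w]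
    [Fintype 𝒬] (m : ℕ) :
    lagrangeFun ℋ f g m =
      lagrangeFam (quotientFunc f : 𝒬 → ℍ → ℂ) (quotientFunc g : 𝒬 → ℍ → ℂ) m := by
  unfold lagrangeFun
  congr!

lemma esymmFun_apply [SlashInvariantFormClass F 𝒢 k] [Fintype 𝒬] (m : ℕ) (z : ℍ) :
    esymmFun ℋ f m z = esymmFam (fun q : 𝒬 => quotientFunc f q z) m := by
  rw [esymmFun_eq, esymmFam_apply]

lemma lagrangeFun_apply [SlashInvariantFormClass F 𝒢 k] [SlashInvariantFormClass G 𝒢 w]
    [Fintype 𝒬] (m : ℕ) (z : ℍ) :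
    lagrangeFun ℋ f g m z =
      lagrangeFam (fun q : 𝒬 => quotientFunc f q z) (fun q : 𝒬 => quotientFunc g q z) m := by
  rw [lagrangeFun_eq, lagrangeFam_apply]

lemma esymmFun_slash [SlashInvariantFormClass F 𝒢 k] [ℋ.HasDetPlusMinusOne] (m : ℕ)
    {h : GL (Fin 2) ℝ} (hh : h ∈ ℋ) :
    esymmFun ℋ f m ∣[k * m] h = esymmFun ℋ f m := by
  let := Fintype.ofFinite 𝒬
  rw [esymmFun_eq, esymmFam_slash, Subgroup.HasDetPlusMinusOne.abs_det hh, one_zpow, one_smul]
  simp_rw [quotientFunc_smul f hh]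
  exact esymmFam_comp_equiv (MulAction.toPerm ((⟨h, hh⟩ : ℋ)⁻¹)) (quotientFunc f : 𝒬 → ℍ → ℂ) m

lemma lagrangeFun_slash [SlashInvariantFormClass F 𝒢 k] [SlashInvariantFormClass G 𝒢 w]
    [ℋ.HasDetPlusMinusOne] (m : ℕ) {h : GL (Fin 2) ℝ} (hh : h ∈ ℋ) :
    lagrangeFun ℋ f g m ∣[k + w * m] h = lagrangeFun ℋ f g m := by
  let := Fintype.ofFinite 𝒬
  rw [lagrangeFun_eq, lagrangeFam_slash, Subgroup.HasDetPlusMinusOne.abs_det hh, one_zpow,
    one_smul]
  simp_rw [quotientFunc_smul f hh, quotientFunc_smul g hh]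
  exact lagrangeFam_comp_equiv (MulAction.toPerm ((⟨h, hh⟩ : ℋ)⁻¹))
    (quotientFunc f : 𝒬 → ℍ → ℂ) (quotientFunc g : 𝒬 → ℍ → ℂ) m

end defs

section forms

variable [𝒢.IsFiniteRelIndex ℋ] [ℋ.HasDetPlusMinusOne]

/-- `e_m` of the translates of a modular form, as a modular form of level `ℋ`. -/
noncomputable def esymmForm [ModularFormClass F 𝒢 k] (m : ℕ) : ModularForm ℋ (k * m) where
  toFun := esymmFun ℋ f m
  slash_action_eq' _ hh := esymmFun_slash ℋ f m hh
  holo' := by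
    let := Fintype.ofFinite 𝒬
    change MDiff (esymmFun ℋ f m)
    rw [esymmFun_eq]
    exact esymmFam_mdifferentiable _ (quotientFunc_mdifferentiable f) m
  bdd_at_cusps' hc γ hγ := by
    let := Fintype.ofFinite 𝒬
    rw [esymmFun_eq, esymmFam_slash]
    exact (esymmFam_isBoundedAtImInfty _
      (quotientFunc_slash_isBoundedAtImInfty f hc γ hγ) m).smul _

/-- `e_m` (`m ≠ 0`) of the translates of a cusp form, as a cusp form of level `ℋ`. -/
noncomputable def esymmCuspForm [CuspFormClass F 𝒢 k] (m : ℕ) (hm : m ≠ 0) :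
    CuspForm ℋ (k * m) where
  toFun := esymmFun ℋ f m
  slash_action_eq' _ hh := esymmFun_slash ℋ f m hh
  holo' := by
    let := Fintype.ofFinite 𝒬
    change MDiff (esymmFun ℋ f m)
    rw [esymmFun_eq]
    refine esymmFam_mdifferentiable _ (fun q => ?_) m
    induction q using Quotient.inductionOn with
    | h r => exact (CuspForm.translate f r.val⁻¹).holo'
  zero_at_cusps' hc γ hγ := by
    let := Fintype.ofFinite 𝒬
    rw [esymmFun_eq, esymmFam_slash]
    exact (esymmFam_isZeroAtImInfty _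
      (quotientFunc_slash_isZeroAtImInfty f hc γ hγ) hm).smul _

/-- `∑_q f_q e_m (g_l : l ≠ q)` as a modular form of level `ℋ`. -/
noncomputable def lagrangeForm [ModularFormClass F 𝒢 k] [ModularFormClass G 𝒢 w] (m : ℕ) :
    ModularForm ℋ (k + w * m) where
  toFun := lagrangeFun ℋ f g m
  slash_action_eq' _ hh := lagrangeFun_slash ℋ f g m hh
  holo' := by
    let := Fintype.ofFinite 𝒬
    change MDiff (lagrangeFun ℋ f g m)
    rw [lagrangeFun_eq]
    exact lagrangeFam_mdifferentiable _ _ (quotientFunc_mdifferentiable f)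
      (quotientFunc_mdifferentiable g) m
  bdd_at_cusps' hc γ hγ := by
    let := Fintype.ofFinite 𝒬
    rw [lagrangeFun_eq, lagrangeFam_slash]
    exact (lagrangeFam_isBoundedAtImInfty _ _
      (quotientFunc_slash_isBoundedAtImInfty f hc γ hγ)
      (quotientFunc_slash_isBoundedAtImInfty g hc γ hγ) m).smul _

/-- `∑_q f_q e_m (g_l : l ≠ q)` as a cusp form of level `ℋ`, when `f` is a cusp form. -/
noncomputable def lagrangeCuspForm [CuspFormClass F 𝒢 k] [ModularFormClass G 𝒢 w] (m : ℕ) :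
    CuspForm ℋ (k + w * m) where
  toFun := lagrangeFun ℋ f g m
  slash_action_eq' _ hh := lagrangeFun_slash ℋ f g m hh
  holo' := by
    let := Fintype.ofFinite 𝒬
    change MDiff (lagrangeFun ℋ f g m)
    rw [lagrangeFun_eq]
    refine lagrangeFam_mdifferentiable _ _ (fun q => ?_) (quotientFunc_mdifferentiable g) m
    induction q using Quotient.inductionOn with
    | h r => exact (CuspForm.translate f r.val⁻¹).holo'
  zero_at_cusps' hc γ hγ := by
    let := Fintype.ofFinite 𝒬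
    rw [lagrangeFun_eq, lagrangeFam_slash]
    exact (lagrangeFam_isZeroAtImInfty _ _
      (quotientFunc_slash_isZeroAtImInfty f hc γ hγ)
      (quotientFunc_slash_isBoundedAtImInfty g hc γ hγ) m).smul _

@[simp] lemma coe_esymmForm [ModularFormClass F 𝒢 k] (m : ℕ) :
    ⇑(esymmForm ℋ f m) = esymmFun ℋ f m := rfl

@[simp] lemma coe_esymmCuspForm [CuspFormClass F 𝒢 k] (m : ℕ) (hm : m ≠ 0) :
    ⇑(esymmCuspForm ℋ f m hm) = esymmFun ℋ f m := rfl

@[simp] lemma coe_lagrangeForm [ModularFormClass F 𝒢 k] [ModularFormClass G 𝒢 w] (m : ℕ) :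
    ⇑(lagrangeForm ℋ f g m) = lagrangeFun ℋ f g m := rfl

@[simp] lemma coe_lagrangeCuspForm [CuspFormClass F 𝒢 k] [ModularFormClass G 𝒢 w] (m : ℕ) :
    ⇑(lagrangeCuspForm ℋ f g m) = lagrangeFun ℋ f g m := rfl

end forms

section identities

variable [𝒢.IsFiniteRelIndex ℋ]

/-- (I2) Vieta: `∑_{j ≤ μ} (-1)^j e_j(f_.)(z) f(z)^(μ-j) = 0`, `μ = #𝒬`. -/
theorem vieta_apply [SlashInvariantFormClass F 𝒢 k] (z : ℍ) :
    ∑ j ∈ Finset.range (Nat.card 𝒬 + 1),
      (-1) ^ j * esymmFun ℋ f j z * f z ^ (Nat.card 𝒬 - j) = 0 := by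
  let := Fintype.ofFinite 𝒬
  have h := vieta_root (fun q : 𝒬 => quotientFunc f q z) ((1 : ℋ) : 𝒬)
  rw [Nat.card_eq_fintype_card]
  simp_rw [esymmFun_apply]
  have h1 : quotientFunc f ((1 : ℋ) : 𝒬) z = f z := by rw [quotientFunc_one]
  rw [h1] at h
  exact h

open Classical in
/-- (I1) Lagrange: `f(z) ∏_{l ≠ 1} (g(z) - g_l(z)) = ∑_{j < μ} (-1)^j L_j(z) g(z)^(μ-1-j)`. -/
theorem lagrange_apply [SlashInvariantFormClass F 𝒢 k] [SlashInvariantFormClass G 𝒢 w]
    [Fintype 𝒬] (z : ℍ) :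
    f z * ∏ l ∈ (Finset.univ : Finset 𝒬).erase ((1 : ℋ) : 𝒬), (g z - quotientFunc g l z) =
      ∑ j ∈ Finset.range (Nat.card 𝒬),
        (-1) ^ j * lagrangeFun ℋ f g j z * g z ^ (Nat.card 𝒬 - 1 - j) := by
  have h := lagrange_eval (fun q : 𝒬 => quotientFunc f q z) (fun q : 𝒬 => quotientFunc g q z)
    ((1 : ℋ) : 𝒬)
  rw [Nat.card_eq_fintype_card]
  simp_rw [lagrangeFun_apply]
  have h1 : quotientFunc f ((1 : ℋ) : 𝒬) z = f z := by rw [quotientFunc_one]
  have h2 : quotientFunc g ((1 : ℋ) : 𝒬) z = g z := by rw [quotientFunc_one]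
  rw [h1, h2] at h
  exact h

end identities

section denominator

variable [𝒢.IsFiniteRelIndex ℋ]

open Classical in
/-- The Lagrange denominator `D = ∏_{l ≠ 1} (g - g_l)` as a function on `ℍ`. -/
noncomputable def lagrangeDenom [SlashInvariantFormClass G 𝒢 w] : ℍ → ℂ :=
  let := Fintype.ofFinite 𝒬
  ∏ l ∈ (Finset.univ : Finset 𝒬).erase ((1 : ℋ) : 𝒬), ((g : ℍ → ℂ) - quotientFunc g l)

lemma lagrangeDenom_apply [SlashInvariantFormClass G 𝒢 w] [Fintype 𝒬] [DecidableEq 𝒬] (z : ℍ) :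
    lagrangeDenom ℋ g z =
      ∏ l ∈ (Finset.univ : Finset 𝒬).erase ((1 : ℋ) : 𝒬), (g z - quotientFunc g l z) := by
  unfold lagrangeDenom
  rw [Finset.prod_apply]
  simp only [Pi.sub_apply]
  congr!

lemma lagrangeDenom_mdifferentiable [ModularFormClass G 𝒢 w] : MDiff (lagrangeDenom ℋ g) := by
  classical
  unfold lagrangeDenom
  exact MDifferentiable.prod (f := fun l : 𝒬 => (g : ℍ → ℂ) - quotientFunc g l)
    fun l _ => (ModularFormClass.holo g).sub (quotientFunc_mdifferentiable g l)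

/-- If no translate `g_l` (`l ≠ 1`) equals `g`, the Lagrange denominator is not the zero
function. -/
lemma lagrangeDenom_ne_zero [ModularFormClass G 𝒢 w]
    (hsep : ∀ l : 𝒬, l ≠ ((1 : ℋ) : 𝒬) → quotientFunc g l ≠ (g : ℍ → ℂ)) :
    lagrangeDenom ℋ g ≠ 0 := by
  classical
  unfold lagrangeDenom
  intro h0
  rw [UpperHalfPlane.prod_eq_zero_iff (fun l _ =>
    (ModularFormClass.holo g).sub (quotientFunc_mdifferentiable g l))] at h0
  obtain ⟨l, hl, hl0⟩ := h0
  exact hsep l (Finset.ne_of_mem_erase hl) (sub_eq_zero.mp hl0).symm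

/-- Variant of `lagrangeDenom_ne_zero` with the separation hypothesis stated by slashing with
elements of `ℋ` outside `𝒢`. -/
lemma lagrangeDenom_ne_zero' [ModularFormClass G 𝒢 w]
    (hsep : ∀ h ∈ ℋ, h ∉ 𝒢 → (g : ℍ → ℂ) ∣[w] h ≠ (g : ℍ → ℂ)) :
    lagrangeDenom ℋ g ≠ 0 := by
  refine lagrangeDenom_ne_zero ℋ g fun l hl => ?_
  induction l using Quotient.inductionOn with
  | h r =>
    obtain ⟨r, hr⟩ := r
    rw [quotientFunc_mk]
    refine hsep _ (inv_mem hr) fun hmem => hl ?_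
    have hr' : r ∈ 𝒢 := by simpa using inv_mem hmem
    change ((⟨r, hr⟩ : ℋ) : 𝒬) = ((1 : ℋ) : 𝒬)
    rw [QuotientGroup.eq]
    simpa [Subgroup.mem_subgroupOf] using inv_mem hr'

/-- (I1) in terms of `lagrangeDenom`. -/
theorem mul_lagrangeDenom_apply [SlashInvariantFormClass F 𝒢 k] [SlashInvariantFormClass G 𝒢 w]
    (z : ℍ) :
    f z * lagrangeDenom ℋ g z =
      ∑ j ∈ Finset.range (Nat.card 𝒬),
        (-1) ^ j * lagrangeFun ℋ f g j z * g z ^ (Nat.card 𝒬 - 1 - j) := by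
  classical
  let := Fintype.ofFinite 𝒬
  rw [lagrangeDenom_apply]
  exact lagrange_apply ℋ f g z

/-- (I1) for `f = 1`: the Lagrange denominator itself as a polynomial in `g` with level-`ℋ`
coefficients `d_j = lagrangeFun ℋ 1 g j`. -/
theorem lagrangeDenom_apply_eq_sum [𝒢.HasDetPlusMinusOne] [ModularFormClass G 𝒢 w] (z : ℍ) :
    lagrangeDenom ℋ g z =
      ∑ j ∈ Finset.range (Nat.card 𝒬),
        (-1) ^ j * lagrangeFun ℋ (1 : ModularForm 𝒢 0) g j z * g z ^ (Nat.card 𝒬 - 1 - j) := by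
  have h := mul_lagrangeDenom_apply ℋ (1 : ModularForm 𝒢 0) g z
  simpa using h

end denominator

end Fermat.Agent.S23.H26
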